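/-
ORD (S33), brick Z, first half — helper83.  **S33 from one invariant functional per point.**

For every minimal prime `𝔭` of `T` and every valuation subring `P` of `ℚ̄` over `p`, suppose there is
an `(T ⧸ 𝔭)`-module `Λ` with an action of `G_ℚ` satisfying the Cayley–Hamilton relation for the
trace and determinant of the point `pt 𝔭 H` (in the shape of `CHFunctional40`), and a NONZERO
functional on `Λ` invariant under the inertia group of `P` (`PointFunctional`).  Then `H.ρ` is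
ordinary at `p`.

Wiring: A3 `CHFunctional40` (trace identities at the point) → A2 `PointsOfT83.ident_of_forall_pt`
(identities in `T`) → A4 `OrdOfIdent92.isOrdinaryAt_of_ident` with A0 `DetCyclo95.detIsCyclotomic`.
-/
import Mathlib
import Fermat.Agent.ORD.Alg.PointsOfT83
import Fermat.Agent.ORD.Alg.DetCyclo95
import Fermat.Agent.ORD.Alg.CHFunctional40
import Fermat.Agent.ORD.Alg.OrdOfIdent92

set_option autoImplicit false
set_option linter.unusedSectionVars false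
set_option linter.style.haveILetI false

noncomputable section

namespace Fermat.Agent.ORD.Z.Skeleton83

open Fermat.Agent.ORD.Alg Fermat.Agent.ORD.Alg.PointsOfT83 Fermat.Agent.ORD.Alg.CHFunctional40
  IsLocalRing

local notation "Qb" => AlgebraicClosure ℚ
local notation "GQ" => (AlgebraicClosure ℚ ≃ₐ[ℚ] AlgebraicClosure ℚ)

/-! ### The inertia group is normalised by the decomposition group -/

/-- conjugation by the decomposition group preserves the inertia group (`h⁻¹ σ h` form, as in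
`CHFunctional40.Dfun_mul`). -/
theorem inv_mul_mul_mem_inertia (P : ValuationSubring Qb) {h σ : GQ}
    (hh : h ∈ P.decompositionSubgroup ℚ) (hσ : σ ∈ P.inertiaSubgroupIn ℚ) :
    h⁻¹ * σ * h ∈ P.inertiaSubgroupIn ℚ := by
  obtain ⟨σ', hσ', rfl⟩ := Subgroup.mem_map.mp hσ
  have hn : (P.inertiaSubgroup ℚ).Normal := by
    unfold ValuationSubring.inertiaSubgroup
    infer_instance
  have h1 := hn.conj_mem σ' hσ' (⟨h, hh⟩ : P.decompositionSubgroup ℚ)⁻¹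
  rw [inv_inv] at h1
  exact Subgroup.mem_map.mpr ⟨_, h1, rfl⟩

theorem inertia_le_decomposition (P : ValuationSubring Qb) {σ : GQ}
    (hσ : σ ∈ P.inertiaSubgroupIn ℚ) : σ ∈ P.decompositionSubgroup ℚ := by
  obtain ⟨σ', _, rfl⟩ := Subgroup.mem_map.mp hσ
  exact σ'.2

/-! ### The per-point input -/

variable {p : ℕ} {N : ℕ} [NeZero N] {S : Finset ℕ}
  {𝒪 : Type} [CommRing 𝒪] [IsDomain 𝒪] [IsDiscreteValuationRing 𝒪]
  [IsAdicComplete (IsLocalRing.maximalIdeal 𝒪) 𝒪]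
  {θ : CuspForm.heckeAlgebra N 2 (↑S : Set ℕ) →+* IsLocalRing.ResidueField 𝒪}
  {T : Type} [CommRing T] [IsLocalRing T] [IsNoetherianRing T]
  [IsAdicComplete (IsLocalRing.maximalIdeal T) T] [Algebra 𝒪 T] [IsLocalHom (algebraMap 𝒪 T)]
  [Module.Finite 𝒪 T] [Module.Free 𝒪 T]

/-- trace of the point, as a function on `G_ℚ`. -/
def trPt (𝔭 : Ideal T) [𝔭.IsPrime] (H : CuspForm.HeckeGaloisRepDatum N (↑S : Set ℕ) 𝒪 θ T) :
    GQ → T ⧸ 𝔭 := fun g => LinearMap.trace (T ⧸ 𝔭) (pt 𝔭 H).V ((pt 𝔭 H).ρ g)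

/-- determinant of the point, as a monoid homomorphism. -/
def detPt (𝔭 : Ideal T) [𝔭.IsPrime] (H : CuspForm.HeckeGaloisRepDatum N (↑S : Set ℕ) 𝒪 θ T) :
    GQ →* T ⧸ 𝔭 := (LinearMap.det : Module.End (T ⧸ 𝔭) (pt 𝔭 H).V →* T ⧸ 𝔭).comp (pt 𝔭 H).ρ

theorem trPt_eq (𝔭 : Ideal T) [𝔭.IsPrime] (H : CuspForm.HeckeGaloisRepDatum N (↑S : Set ℕ) 𝒪 θ T)
    (g : GQ) : trPt 𝔭 H g = Ideal.Quotient.mk 𝔭 (LinearMap.trace T H.ρ.V (H.ρ.ρ g)) :=
  trace_pt 𝔭 H g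

theorem detPt_eq (𝔭 : Ideal T) [𝔭.IsPrime] (H : CuspForm.HeckeGaloisRepDatum N (↑S : Set ℕ) 𝒪 θ T)
    (g : GQ) : detPt 𝔭 H g = Ideal.Quotient.mk 𝔭 (LinearMap.det (H.ρ.ρ g)) :=
  det_pt 𝔭 H g

/-- **The per-point input of Z**: a Cayley–Hamilton module for `(tr, det)` of the point `T → T ⧸ 𝔭`
with a nonzero functional invariant under the inertia group of `P`. -/
def PointFunctional (𝔭 : Ideal T) [𝔭.IsPrime]
    (H : CuspForm.HeckeGaloisRepDatum N (↑S : Set ℕ) 𝒪 θ T) (P : ValuationSubring Qb) : Prop :=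
  ∃ (Λ : Type) (_ : AddCommGroup Λ) (_ : Module (T ⧸ 𝔭) Λ) (r : GQ →* Module.End (T ⧸ 𝔭) Λ)
    (lam : Λ →ₗ[T ⧸ 𝔭] (T ⧸ 𝔭)),
    (∀ g : GQ, r g + detPt 𝔭 H g • r g⁻¹ = trPt 𝔭 H g • (1 : Module.End (T ⧸ 𝔭) Λ)) ∧
      lam ≠ 0 ∧ ∀ σ ∈ P.inertiaSubgroupIn ℚ, ∀ x, lam (r σ x) = lam x

/-- the trace identities at a point, from `PointFunctional` (brick A3). -/
theorem traceIdent_pt (𝔭 : Ideal T) [𝔭.IsPrime]
    (H : CuspForm.HeckeGaloisRepDatum N (↑S : Set ℕ) 𝒪 θ T) (P : ValuationSubring Qb)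
    (hpt : PointFunctional 𝔭 H P) :
    (∀ h ∈ P.inertiaSubgroupIn ℚ, trPt 𝔭 H h = 1 + detPt 𝔭 H h) ∧
      ∀ σ₀ ∈ P.inertiaSubgroupIn ℚ, ∀ h ∈ P.decompositionSubgroup ℚ, ∀ g : GQ,
        (detPt 𝔭 H σ₀ - 1) * Dfun (trPt 𝔭 H) (detPt 𝔭 H) σ₀ (h * g) =
          Dfun (trPt 𝔭 H) (detPt 𝔭 H) σ₀ h * Dfun (trPt 𝔭 H) (detPt 𝔭 H) σ₀ g := by
  obtain ⟨Λ, _, _, r, lam, hW, hlam, hinv⟩ := hpt
  refine ⟨fun h hh => trace_eq_one_add r (trPt 𝔭 H) (detPt 𝔭 H) hW (P.inertiaSubgroupIn ℚ) lam hlam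
    hinv h hh, fun σ₀ hσ₀ h hh g => ?_⟩
  exact Dfun_mul r (trPt 𝔭 H) (detPt 𝔭 H) hW (P.inertiaSubgroupIn ℚ) lam hlam hinv
    (P.decompositionSubgroup ℚ) (fun h hh σ hσ => inv_mul_mul_mem_inertia P hh hσ) σ₀ hσ₀ h hh g

/-- **Z, first half**: S33 from one invariant functional per (minimal prime, place over `p`). -/
theorem s33_of_points [CharZero 𝒪] (hp : p.Prime) (hp2 : p ≠ 2)
    (hp𝒪 : (p : 𝒪) ∈ IsLocalRing.maximalIdeal 𝒪)
    (hNS : ∀ q : ℕ, q.Prime → q ∣ N → q ∈ S)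
    (H : CuspForm.HeckeGaloisRepDatum N (↑S : Set ℕ) 𝒪 θ T)
    (hpts : ∀ (𝔭 : Ideal T) (h𝔭 : 𝔭 ∈ minimalPrimes T) (P : ValuationSubring Qb),
      P.LiesOverPrime p →
        haveI := RedT83.isPrime_of_mem_minimalPrimes h𝔭
        PointFunctional 𝔭 H P) :
    H.ρ.IsOrdinaryAt p := by
  refine OrdOfIdent92.isOrdinaryAt_of_ident H.ρ hp hp2 (DetCyclo95.detIsCyclotomic hp hp𝒪 H)
    H.residual_absIrr ?_ ?_
  · intro P hP h hh
    refine ident_of_forall_pt hNS H fun 𝔭 h𝔭 => ?_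
    haveI := RedT83.isPrime_of_mem_minimalPrimes h𝔭
    have h1 := (traceIdent_pt 𝔭 H P (hpts 𝔭 h𝔭 P hP)).1 h hh
    rw [trPt_eq, detPt_eq] at h1
    rw [h1, map_add, map_one]
  · intro P hP σ₀ hσ₀ h hh g
    refine ident_of_forall_pt hNS H fun 𝔭 h𝔭 => ?_
    haveI := RedT83.isPrime_of_mem_minimalPrimes h𝔭
    have h1 := (traceIdent_pt 𝔭 H P (hpts 𝔭 h𝔭 P hP)).2 σ₀ hσ₀ h hh g
    simp only [Dfun, trPt_eq, detPt_eq] at h1
    simp only [Dfun, MonoidHom.comp_apply, RingHom.map_mul, RingHom.map_sub, RingHom.map_one]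
    exact h1

end Fermat.Agent.ORD.Z.Skeleton83
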