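/-
ORD (S33), brick Z, residual transport — helper83.  **The residual identities at a point.**

Brick A6 (`ResidualIdent95.residualIdent`) proves the residual trace identities over the residue
field `k_T` of the big Hecke ring `T`.  Brick A7 (`ResidualModule79.residual_consequences`) consumes
them over the residue field of `A = T ⧸ 𝔭`, for the trace and determinant of the point
(`Skeleton83.trPt`, `Skeleton83.detPt`).  This file transports A6 along the field homomorphism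
`κ = ResidueField.map (Ideal.Quotient.mk 𝔭) : k_T → k_A`, and derives the inputs of A6 from the
hypotheses of S33:

* `Dfun_map`, `ident_map`, `not_mult_map`          : transport of the three statements along an
                                                    (injective) ring homomorphism of fields;
* `kap`, `tbPt`, `dbPt`                             : `κ`, `κ ∘ t̄`, `κ ∘ δ̄`;
* `residue_trPt`, `residue_detPt`                   : residues of `trPt`, `detPt` are `tbPt`, `dbPt`;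
* `residue_det_eq_natCast`                          : `δ̄ σ₀ = c₀` if `σ₀` acts on `μ_p` by `ζ ↦ ζ ^ c₀`
                                                    (from `DetIsCyclotomic`, `n = 1`);
* `hord_of_hres`                                    : the hypothesis `hres` of S33 at a place `P`, in
                                                    the shape of A6;
* `residualIdent_pt`                                : A6 transported to the point;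
* `residual_pt`                                     : the bundle consumed by A7, from the hypotheses
                                                    of S33.
-/
import Mathlib
import Fermat.Agent.ORD.Z.Skeleton83
import Fermat.Agent.ORD.Alg.ResidualIdent95

set_option autoImplicit false
set_option linter.unusedSectionVars false
set_option linter.style.haveILetI false

noncomputable section

namespace Fermat.Agent.ORD.Z.ResidualPt83

open Fermat.Agent.ORD.Alg Fermat.Agent.ORD.Alg.PointsOfT83 Fermat.Agent.ORD.Alg.CHFunctional40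
  Fermat.Agent.ORD.Alg.ResidualIdent95 Fermat.Agent.ORD.Z.Skeleton83 IsLocalRing

local notation "Qb" => AlgebraicClosure ℚ
local notation "GQ" => (AlgebraicClosure ℚ ≃ₐ[ℚ] AlgebraicClosure ℚ)

/-! ### 1. Transport along a homomorphism of fields -/

section Generic

variable {k k' : Type*} [Field k] [Field k'] (κ : k →+* k') {G : Type*} [Group G]
  (t : G → k) (δ : G →* k)

/-- `Dfun` commutes with ring homomorphisms. -/
theorem Dfun_map (σ₀ g : G) :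
    Dfun (fun g => κ (t g)) ((κ : k →* k').comp δ) σ₀ g = κ (Dfun t δ σ₀ g) := by
  unfold Dfun
  rw [map_sub, map_mul]
  rfl

/-- the identity (I1) is transported. -/
theorem ident_one_map (I : Subgroup G) (h1 : ∀ h ∈ I, t h = 1 + δ h) :
    ∀ h ∈ I, κ (t h) = 1 + ((κ : k →* k').comp δ) h := by
  intro h hh
  rw [h1 h hh, map_add, map_one]
  rfl

/-- the identity (I2) is transported. -/
theorem ident_two_map (D : Subgroup G) (σ₀ : G)
    (h2 : ∀ h ∈ D, ∀ g : G, (δ σ₀ - 1) * Dfun t δ σ₀ (h * g) = Dfun t δ σ₀ h * Dfun t δ σ₀ g) :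
    ∀ h ∈ D, ∀ g : G,
      (((κ : k →* k').comp δ) σ₀ - 1) *
          Dfun (fun g => κ (t g)) ((κ : k →* k').comp δ) σ₀ (h * g) =
        Dfun (fun g => κ (t g)) ((κ : k →* k').comp δ) σ₀ h *
          Dfun (fun g => κ (t g)) ((κ : k →* k').comp δ) σ₀ g := by
  intro h hh g
  rw [Dfun_map, Dfun_map, Dfun_map, ← map_mul, ← h2 h hh g, map_mul, map_sub, map_one]
  rfl

/-- non-multiplicativity of `D` is transported (a homomorphism of fields is injective). -/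
theorem not_mult_map (σ₀ : G)
    (h3 : ¬ ∀ g g' : G, (δ σ₀ - 1) * Dfun t δ σ₀ (g * g') = Dfun t δ σ₀ g * Dfun t δ σ₀ g') :
    ¬ ∀ g g' : G,
      (((κ : k →* k').comp δ) σ₀ - 1) *
          Dfun (fun g => κ (t g)) ((κ : k →* k').comp δ) σ₀ (g * g') =
        Dfun (fun g => κ (t g)) ((κ : k →* k').comp δ) σ₀ g *
          Dfun (fun g => κ (t g)) ((κ : k →* k').comp δ) σ₀ g' := by
  intro hm
  apply h3
  intro g g'
  apply κ.injective
  have := hm g g'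
  rw [Dfun_map, Dfun_map, Dfun_map] at this
  rw [map_mul, map_mul, map_sub, map_one]
  exact this

end Generic

/-! ### 2. The residue field of a quotient by a prime -/

section Quot

variable {T : Type} [CommRing T] [IsLocalRing T]

/-- the homomorphism `k_T → k_{T ⧸ 𝔭}` (an isomorphism, see
`PointsOfT83.residueFieldMap_mk_bijective`). -/
def kap (𝔭 : Ideal T) [𝔭.IsPrime] : ResidueField T →+* ResidueField (T ⧸ 𝔭) :=
  haveI := isLocalHom_mk 𝔭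
  ResidueField.map (Ideal.Quotient.mk 𝔭)

theorem kap_residue (𝔭 : Ideal T) [𝔭.IsPrime] (x : T) :
    kap 𝔭 (residue T x) = residue (T ⧸ 𝔭) (Ideal.Quotient.mk 𝔭 x) := rfl

theorem kap_natCast (𝔭 : Ideal T) [𝔭.IsPrime] (n : ℕ) :
    kap 𝔭 (n : ResidueField T) = (n : ResidueField (T ⧸ 𝔭)) := map_natCast _ n

/-- the residual trace, transported to the residue field of `T ⧸ 𝔭`. -/
def tbPt (𝔭 : Ideal T) [𝔭.IsPrime] (ρ : GaloisRepAdic T) : GQ → ResidueField (T ⧸ 𝔭) :=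
  fun g => kap 𝔭 (tbar ρ g)

/-- the residual determinant, transported to the residue field of `T ⧸ 𝔭`. -/
def dbPt (𝔭 : Ideal T) [𝔭.IsPrime] (ρ : GaloisRepAdic T) : GQ →* ResidueField (T ⧸ 𝔭) :=
  ((kap 𝔭 : ResidueField T →* ResidueField (T ⧸ 𝔭))).comp (dbar ρ)

theorem tbPt_apply (𝔭 : Ideal T) [𝔭.IsPrime] (ρ : GaloisRepAdic T) (g : GQ) :
    tbPt 𝔭 ρ g = residue (T ⧸ 𝔭) (Ideal.Quotient.mk 𝔭 (LinearMap.trace T ρ.V (ρ.ρ g))) := rfl

theorem dbPt_apply (𝔭 : Ideal T) [𝔭.IsPrime] (ρ : GaloisRepAdic T) (g : GQ) :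
    dbPt 𝔭 ρ g = residue (T ⧸ 𝔭) (Ideal.Quotient.mk 𝔭 (LinearMap.det (ρ.ρ g))) := rfl

theorem dbPt_eq_kap (𝔭 : Ideal T) [𝔭.IsPrime] (ρ : GaloisRepAdic T) (g : GQ) :
    dbPt 𝔭 ρ g = kap 𝔭 (dbar ρ g) := rfl

/-- `δ̄ σ₀ ≠ 1` is transported. -/
theorem dbPt_ne_one (𝔭 : Ideal T) [𝔭.IsPrime] (ρ : GaloisRepAdic T) {σ₀ : GQ}
    (hα : dbar ρ σ₀ ≠ 1) : dbPt 𝔭 ρ σ₀ ≠ 1 := by
  intro h
  apply hα
  apply (kap 𝔭).injective
  rw [map_one]
  exact h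

/-- **A6 transported to the point** `T → T ⧸ 𝔭`. -/
theorem residualIdent_quot (𝔭 : Ideal T) [𝔭.IsPrime] (ρ : GaloisRepAdic T)
    (hirr : ρ.residual.IsAbsolutelyIrreducible) (P : ValuationSubring Qb)
    (hord : ∃ L : Submodule (ResidueField T) ρ.residual.V,
      (∃ b : Module.Basis (Fin 2) (ResidueField T) ρ.residual.V,
        L = (ResidueField T) ∙ b 0) ∧
      (∀ σ ∈ P.decompositionSubgroup ℚ, ∀ v ∈ L, ρ.residual.ρ σ v ∈ L) ∧
      (∀ σ ∈ P.inertiaSubgroupIn ℚ, ∀ v : ρ.residual.V, ρ.residual.ρ σ v - v ∈ L))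
    (σ₀ : GQ) (hσ₀ : σ₀ ∈ P.inertiaSubgroupIn ℚ) (hα : dbar ρ σ₀ ≠ 1) :
    dbPt 𝔭 ρ σ₀ ≠ 1 ∧
    (∀ h ∈ P.inertiaSubgroupIn ℚ, tbPt 𝔭 ρ h = 1 + dbPt 𝔭 ρ h) ∧
    (∀ h ∈ P.decompositionSubgroup ℚ, ∀ g : GQ,
      (dbPt 𝔭 ρ σ₀ - 1) * Dfun (tbPt 𝔭 ρ) (dbPt 𝔭 ρ) σ₀ (h * g) =
        Dfun (tbPt 𝔭 ρ) (dbPt 𝔭 ρ) σ₀ h * Dfun (tbPt 𝔭 ρ) (dbPt 𝔭 ρ) σ₀ g) ∧
    ¬ ∀ g g' : GQ, (dbPt 𝔭 ρ σ₀ - 1) * Dfun (tbPt 𝔭 ρ) (dbPt 𝔭 ρ) σ₀ (g * g') =
        Dfun (tbPt 𝔭 ρ) (dbPt 𝔭 ρ) σ₀ g * Dfun (tbPt 𝔭 ρ) (dbPt 𝔭 ρ) σ₀ g' := by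
  obtain ⟨h1, h2, h3⟩ := residualIdent ρ hirr P hord σ₀ hσ₀ hα
  exact ⟨dbPt_ne_one 𝔭 ρ hα, ident_one_map (kap 𝔭) (tbar ρ) (dbar ρ) _ h1,
    ident_two_map (kap 𝔭) (tbar ρ) (dbar ρ) _ σ₀ h2, not_mult_map (kap 𝔭) (tbar ρ) (dbar ρ) σ₀ h3⟩

/-- **the residual determinant of `σ₀` from the cyclotomic determinant**: if `σ₀` acts on `μ_p` by
`ζ ↦ ζ ^ c₀` then `δ̄ σ₀ = c₀`. -/
theorem dbar_eq_natCast {p : ℕ} (ρ : GaloisRepAdic T) (hdet : ρ.DetIsCyclotomic p) (σ₀ : GQ)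
    (c₀ : ℕ) (hc₀ : ∀ ζ : Qb, ζ ^ p = 1 → σ₀ ζ = ζ ^ c₀) :
    dbar ρ σ₀ = (c₀ : ResidueField T) := by
  obtain ⟨hpT, hd⟩ := hdet
  have h1 := hd 1 σ₀ c₀ (fun μ hμ => hc₀ μ (by rwa [pow_one] at hμ))
  rw [pow_one, Ideal.mem_span_singleton] at h1
  have h2 : LinearMap.det (ρ.ρ σ₀) - (c₀ : T) ∈ maximalIdeal T :=
    Ideal.mem_of_dvd _ h1 hpT
  rw [dbar_apply, ← sub_eq_zero, ← map_natCast (residue T) c₀, ← map_sub]
  exact (residue_eq_zero_iff _).mpr h2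

end Quot

/-! ### 3. The Hecke datum -/

variable {p : ℕ} {N : ℕ} [NeZero N] {S : Finset ℕ}
  {𝒪 : Type} [CommRing 𝒪] [IsDomain 𝒪] [IsDiscreteValuationRing 𝒪]
  [IsAdicComplete (IsLocalRing.maximalIdeal 𝒪) 𝒪]
  {θ : CuspForm.heckeAlgebra N 2 (↑S : Set ℕ) →+* IsLocalRing.ResidueField 𝒪}
  {T : Type} [CommRing T] [IsLocalRing T] [IsNoetherianRing T]
  [IsAdicComplete (IsLocalRing.maximalIdeal T) T] [Algebra 𝒪 T] [IsLocalHom (algebraMap 𝒪 T)]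
  [Module.Finite 𝒪 T] [Module.Free 𝒪 T]

/-- the residue of the trace of the point. -/
theorem residue_trPt (𝔭 : Ideal T) [𝔭.IsPrime]
    (H : CuspForm.HeckeGaloisRepDatum N (↑S : Set ℕ) 𝒪 θ T) (g : GQ) :
    residue (T ⧸ 𝔭) (trPt 𝔭 H g) = tbPt 𝔭 H.ρ g := by
  rw [trPt_eq, tbPt_apply]

/-- the residue of the determinant of the point. -/
theorem residue_detPt (𝔭 : Ideal T) [𝔭.IsPrime]
    (H : CuspForm.HeckeGaloisRepDatum N (↑S : Set ℕ) 𝒪 θ T) (g : GQ) :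
    residue (T ⧸ 𝔭) (detPt 𝔭 H g) = dbPt 𝔭 H.ρ g := by
  rw [detPt_eq, dbPt_apply]

/-- the hypothesis `hres` of S33 at a place `P` over `p`, in the shape consumed by A6. -/
theorem hord_of_hres (H : CuspForm.HeckeGaloisRepDatum N (↑S : Set ℕ) 𝒪 θ T)
    (hres : (GaloisRepAdic.ofResidualGaloisRep H.ρ.residual).IsOrdinaryAt p)
    (P : ValuationSubring Qb) (hP : P.LiesOverPrime p) :
    ∃ L : Submodule (ResidueField T) H.ρ.residual.V,
      (∃ b : Module.Basis (Fin 2) (ResidueField T) H.ρ.residual.V,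
        L = (ResidueField T) ∙ b 0) ∧
      (∀ σ ∈ P.decompositionSubgroup ℚ, ∀ v ∈ L, H.ρ.residual.ρ σ v ∈ L) ∧
      (∀ σ ∈ P.inertiaSubgroupIn ℚ, ∀ v : H.ρ.residual.V, H.ρ.residual.ρ σ v - v ∈ L) :=
  hres P hP

/-- **The residual bundle at the point, from the hypotheses of S33** (everything A7 consumes):
`σ₀` in the inertia group of `P ∣ p`, acting on `μ_p` by `ζ ↦ ζ ^ c₀` with `c₀ ≢ 1` in the residue
field. -/
theorem residual_pt (hp : p.Prime) (hp𝒪 : (p : 𝒪) ∈ maximalIdeal 𝒪)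
    (H : CuspForm.HeckeGaloisRepDatum N (↑S : Set ℕ) 𝒪 θ T)
    (hres : (GaloisRepAdic.ofResidualGaloisRep H.ρ.residual).IsOrdinaryAt p)
    (𝔭 : Ideal T) [𝔭.IsPrime] (P : ValuationSubring Qb) (hP : P.LiesOverPrime p)
    (σ₀ : GQ) (hσ₀ : σ₀ ∈ P.inertiaSubgroupIn ℚ) (c₀ : ℕ)
    (hc₀ : ∀ ζ : Qb, ζ ^ p = 1 → σ₀ ζ = ζ ^ c₀) (hc₀1 : (c₀ : ResidueField T) ≠ 1) :
    (∀ g, residue (T ⧸ 𝔭) (trPt 𝔭 H g) = tbPt 𝔭 H.ρ g) ∧
    (∀ g, residue (T ⧸ 𝔭) (detPt 𝔭 H g) = dbPt 𝔭 H.ρ g) ∧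
    residue (T ⧸ 𝔭) ((c₀ : ℕ) : T ⧸ 𝔭) = dbPt 𝔭 H.ρ σ₀ ∧
    dbPt 𝔭 H.ρ σ₀ ≠ 1 ∧
    (∀ h ∈ P.inertiaSubgroupIn ℚ, tbPt 𝔭 H.ρ h = 1 + dbPt 𝔭 H.ρ h) ∧
    (∀ h ∈ P.decompositionSubgroup ℚ, ∀ g : GQ,
      (dbPt 𝔭 H.ρ σ₀ - 1) * Dfun (tbPt 𝔭 H.ρ) (dbPt 𝔭 H.ρ) σ₀ (h * g) =
        Dfun (tbPt 𝔭 H.ρ) (dbPt 𝔭 H.ρ) σ₀ h * Dfun (tbPt 𝔭 H.ρ) (dbPt 𝔭 H.ρ) σ₀ g) ∧
    ¬ ∀ g g' : GQ, (dbPt 𝔭 H.ρ σ₀ - 1) * Dfun (tbPt 𝔭 H.ρ) (dbPt 𝔭 H.ρ) σ₀ (g * g') =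
        Dfun (tbPt 𝔭 H.ρ) (dbPt 𝔭 H.ρ) σ₀ g * Dfun (tbPt 𝔭 H.ρ) (dbPt 𝔭 H.ρ) σ₀ g' := by
  have hdb : dbar H.ρ σ₀ = (c₀ : ResidueField T) :=
    dbar_eq_natCast H.ρ (DetCyclo95.detIsCyclotomic hp hp𝒪 H) σ₀ c₀ hc₀
  have hα : dbar H.ρ σ₀ ≠ 1 := by rw [hdb]; exact hc₀1
  obtain ⟨h0, h1, h2, h3⟩ := residualIdent_quot 𝔭 H.ρ H.residual_absIrr P
    (hord_of_hres H hres P hP) σ₀ hσ₀ hα
  refine ⟨residue_trPt 𝔭 H, residue_detPt 𝔭 H, ?_, h0, h1, h2, h3⟩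
  rw [dbPt_eq_kap, hdb, kap_natCast, map_natCast]

/-- `(2 : k) ≠ 1` in any field. -/
theorem two_ne_one_residue : ((2 : ℕ) : ResidueField T) ≠ 1 := by
  intro h
  have h2 : ((2 : ℕ) : ResidueField T) = 1 + 1 := by norm_num
  rw [h2] at h
  exact one_ne_zero (α := ResidueField T) (add_eq_left.mp h)

end Fermat.Agent.ORD.Z.ResidualPt83
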