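/-
ORD (S33), brick Z, the NEW case — helper83.  **The invariant functional at a new point.**

`𝔭` a prime of `T`, `A = T ⧸ 𝔭`, `P` a place of `ℚ̄` over `p`, `D : GeoLite40.GeoDataLite p N M P` the
geometric input of chapter G.  `Λ ⊆ A ⊗ T_p J₀(N)` a `p`-saturated `A`-submodule with an action `ρΛ`
of `G_ℚ` induced by the Galois action on the Tate module, satisfying the Cayley–Hamilton relation for
the trace and determinant of the point (`Skeleton83.trPt`, `Skeleton83.detPt`), killed by both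
degeneracy pushes.  Then `Skeleton83.PointFunctional 𝔭 H P` holds:

* `pointFunctional_of_hns`  : from `hns` (`σ₀` is not the scalar `c₀` on `Λ / 𝔪 Λ`, type form), via N1
                              (`GeoLite40.functional_of_geoDataLite`);
* `A7a`, `a7a`              : the literal first conclusion of brick A7 (report #1408), proved by
                              `ResidualModule79.residual_consequences`;
* `hns_of_A7a`, `hns_pt`    : `hns` from A7(a) and the residual bundle `ResidualPt83.residual_pt`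
                              (A6 transported, A0 at `n = 1`);
* `pointFunctional_new_of_sigma` : the NEW case for a given `σ₀` acting on `μ_p` by `ζ ↦ ζ ^ c₀`;
* `pointFunctional_new`     : the NEW case from the hypotheses of S33 (same binders as
                              `OldCase69.pointFunctional_old`, plus `D` and the vanishing of the pushes).
-/
import Mathlib
import Fermat.Agent.ORD.Z.ResidualPt83
import Fermat.Agent.ORD.Spec.GeoLite40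
import Fermat.Agent.ORD.New.NewPoint51
import Fermat.Agent.ORD.Alg.ResidualModule79
import Fermat.Agent.ES.GAL.InertiaCyclo91

set_option autoImplicit false
set_option linter.unusedSectionVars false
set_option linter.style.haveILetI false

open TensorProduct

noncomputable section

namespace Fermat.Agent.ORD.Z.NewPoint83

open Fermat.Agent.ORD.Alg Fermat.Agent.ORD.Alg.PointsOfT83 Fermat.Agent.ORD.Alg.CHFunctional40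
  Fermat.Agent.ORD.Z.Skeleton83 Fermat.Agent.ORD.Z.ResidualPt83
  Fermat.Agent.ORD.Spec.GeoLite40 Fermat.Agent.ES.J.TateModule13 ModularCurve IsLocalRing

local notation "Qb" => AlgebraicClosure ℚ
local notation "GQ" => (AlgebraicClosure ℚ ≃ₐ[ℚ] AlgebraicClosure ℚ)
local notation "tmap" => Fermat.Agent.ES.J.TateModule13.map

/-! ### 0. Brick A7(a), literal statement -/

/-- **Brick A7, first conclusion** (report #1408, `ResidualModule79.residual_consequences`), at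
universe `0`: on a nonzero finite CH-module over a local ring `A`, whose residual pseudo-character is
ordinary and not a sum of two characters, `σ₀` does not act as a scalar lifting `δ̄ σ₀` modulo `𝔪`. -/
def A7a : Prop :=
  ∀ {A : Type} [CommRing A] [IsLocalRing A] {Λ : Type} [AddCommGroup Λ] [Module A Λ]
    [Module.Finite A Λ] [Nontrivial Λ] {G : Type} [Group G] (ρ : G →* Module.End A Λ)
    (t : G → A) (δ : G →* A)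
    (_hW : ∀ g : G, ρ g + δ g • ρ g⁻¹ = t g • (1 : Module.End A Λ))
    (tb : G → ResidueField A) (db : G →* ResidueField A)
    (_htb : ∀ g, residue A (t g) = tb g) (_hdb : ∀ g, residue A (δ g) = db g)
    (I : Subgroup G) (σ₀ : G) (_hσ₀ : σ₀ ∈ I) (_hα : db σ₀ ≠ 1) (_h1 : ∀ h ∈ I, tb h = 1 + db h)
    (_h2 : ∀ h ∈ I, ∀ g : G,
      (db σ₀ - 1) * Dfun tb db σ₀ (h * g) = Dfun tb db σ₀ h * Dfun tb db σ₀ g)
    (_hirr : ¬ ∀ g g' : G,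
      (db σ₀ - 1) * Dfun tb db σ₀ (g * g') = Dfun tb db σ₀ g * Dfun tb db σ₀ g'),
    ∀ c₀ : A, residue A c₀ = db σ₀ →
      ¬ ∀ x : Λ, ρ σ₀ x - c₀ • x ∈ (maximalIdeal A) • (⊤ : Submodule A Λ)

/-- A7(a) holds (`ResidualModule79.residual_consequences`, helper79). -/
theorem a7a : A7a := by
  intro A _ _ Λ _ _ _ _ G _ ρ t δ hW tb db htb hdb I σ₀ hσ₀ hα h1 h2 hirr
  exact (Fermat.Agent.ORD.Alg.ResidualModule79.residual_consequences (A := A) (Λ := Λ) (G := G)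
    ρ t δ hW tb db htb hdb I σ₀ hσ₀ hα h1 h2 hirr).1

variable {p : ℕ} {N : ℕ} [NeZero N] {S : Finset ℕ}
  {𝒪 : Type} [CommRing 𝒪] [IsDomain 𝒪] [IsDiscreteValuationRing 𝒪]
  [IsAdicComplete (IsLocalRing.maximalIdeal 𝒪) 𝒪]
  {θ : CuspForm.heckeAlgebra N 2 (↑S : Set ℕ) →+* IsLocalRing.ResidueField 𝒪}
  {T : Type} [CommRing T] [IsLocalRing T] [IsNoetherianRing T]
  [IsAdicComplete (IsLocalRing.maximalIdeal T) T] [Algebra 𝒪 T] [IsLocalHom (algebraMap 𝒪 T)]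
  [Module.Finite 𝒪 T] [Module.Free 𝒪 T]

/-! ### 1. From `hns` to the functional (N1 on `GeoDataLite`) -/

/-- **The new point, from `hns`.** -/
theorem pointFunctional_of_hns [hp : Fact p.Prime] {M : ℕ} [NeZero M]
    (H : CuspForm.HeckeGaloisRepDatum N (↑S : Set ℕ) 𝒪 θ T)
    (𝔭 : Ideal T) [𝔭.IsPrime] [Algebra ℤ_[p] (T ⧸ 𝔭)] [Module.Flat ℤ_[p] (T ⧸ 𝔭)]
    [Module.Finite ℤ_[p] (TateModule p (JZero N))]
    (hpA : (p : T ⧸ 𝔭) ∈ maximalIdeal (T ⧸ 𝔭))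
    (P : ValuationSubring Qb) (D : GeoDataLite p N M P)
    (Λ : Submodule (T ⧸ 𝔭) ((T ⧸ 𝔭) ⊗[ℤ_[p]] TateModule p (JZero N)))
    (ρΛ : GQ →* Module.End (T ⧸ 𝔭) Λ)
    (hρΛ : ∀ (g : GQ) (x : Λ),
      ((ρΛ g x : Λ) : (T ⧸ 𝔭) ⊗[ℤ_[p]] TateModule p (JZero N)) =
        (rho p (JZero N) g).baseChange (T ⧸ 𝔭) (x : (T ⧸ 𝔭) ⊗[ℤ_[p]] TateModule p (JZero N)))
    (hsat : ∀ x, (p : T ⧸ 𝔭) • x ∈ Λ → x ∈ Λ)
    (hpushα : ∀ x ∈ Λ, (tmap D.pα).baseChange (T ⧸ 𝔭) x = 0)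
    (hpushβ : ∀ x ∈ Λ, (tmap D.pβ).baseChange (T ⧸ 𝔭) x = 0)
    (hW : ∀ g : GQ, ρΛ g + detPt 𝔭 H g • ρΛ g⁻¹ = trPt 𝔭 H g • (1 : Module.End (T ⧸ 𝔭) Λ))
    (σ₀ : GQ) (hσ₀ : σ₀ ∈ P.inertiaSubgroupIn ℚ) (c₀ : ℕ)
    (hc₀ : ∀ ζ : Qb, ζ ^ p = 1 → σ₀ ζ = ζ ^ c₀)
    (hns : ¬ ∀ x : Λ, ρΛ σ₀ x - (c₀ : T ⧸ 𝔭) • x ∈
      maximalIdeal (T ⧸ 𝔭) • (⊤ : Submodule (T ⧸ 𝔭) Λ)) :
    PointFunctional 𝔭 H P := by
  have hstab : ∀ s ∈ P.inertiaSubgroupIn ℚ, ∀ x ∈ Λ,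
      (rho p (JZero N) s).baseChange (T ⧸ 𝔭) x ∈ Λ := by
    intro s _ x hx
    have := hρΛ s ⟨x, hx⟩
    rw [← this]
    exact (ρΛ s ⟨x, hx⟩).2
  have hns' : ¬ ∀ x ∈ Λ, (rho p (JZero N) σ₀).baseChange (T ⧸ 𝔭) x - (c₀ : T ⧸ 𝔭) • x ∈
      maximalIdeal (T ⧸ 𝔭) • Λ := by
    intro hall
    apply hns
    intro x
    rw [Fermat.Agent.ORD.New.NewPoint51.mem_smul_top_iff]
    have := hall x x.2
    rw [← hρΛ σ₀ x] at this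
    exact this
  obtain ⟨lam, ⟨x₀, hx₀, hlam⟩, hinv⟩ := functional_of_geoDataLite P D hpA σ₀ hσ₀ c₀ hc₀ Λ hstab
    hsat hpushα hpushβ hns'
  refine ⟨Λ, inferInstance, inferInstance, ρΛ, lam ∘ₗ Λ.subtype, hW, ?_, ?_⟩
  · intro h0
    apply hlam
    have := congrArg (fun f : Λ →ₗ[T ⧸ 𝔭] (T ⧸ 𝔭) => f ⟨x₀, hx₀⟩) h0
    simpa using this
  · intro σ hσ x
    show lam ((ρΛ σ x : Λ) : (T ⧸ 𝔭) ⊗[ℤ_[p]] TateModule p (JZero N)) = lam x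
    rw [hρΛ σ x]
    exact hinv σ hσ x x.2

/-! ### 2. `hns` from A7(a) and the residual bundle -/

/-- **`hns` from A7(a)**: on a nonzero finite CH-module `Λ` for the trace and determinant of the
point, `σ₀` (acting on `μ_p` by `ζ ↦ ζ ^ c₀`, `c₀ ≢ 1`) is not the scalar `c₀` modulo `𝔪`. -/
theorem hns_of_A7a (hA7 : A7a) (hp : p.Prime) (hp𝒪 : (p : 𝒪) ∈ maximalIdeal 𝒪)
    (H : CuspForm.HeckeGaloisRepDatum N (↑S : Set ℕ) 𝒪 θ T)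
    (hres : (GaloisRepAdic.ofResidualGaloisRep H.ρ.residual).IsOrdinaryAt p)
    (𝔭 : Ideal T) [𝔭.IsPrime] (P : ValuationSubring Qb) (hP : P.LiesOverPrime p)
    (σ₀ : GQ) (hσ₀ : σ₀ ∈ P.inertiaSubgroupIn ℚ) (c₀ : ℕ)
    (hc₀ : ∀ ζ : Qb, ζ ^ p = 1 → σ₀ ζ = ζ ^ c₀) (hc₀1 : (c₀ : ResidueField T) ≠ 1)
    {Λ : Type} [AddCommGroup Λ] [Module (T ⧸ 𝔭) Λ] [Module.Finite (T ⧸ 𝔭) Λ] [Nontrivial Λ]
    (ρΛ : GQ →* Module.End (T ⧸ 𝔭) Λ)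
    (hW : ∀ g : GQ, ρΛ g + detPt 𝔭 H g • ρΛ g⁻¹ = trPt 𝔭 H g • (1 : Module.End (T ⧸ 𝔭) Λ)) :
    ¬ ∀ x : Λ, ρΛ σ₀ x - (c₀ : T ⧸ 𝔭) • x ∈
      maximalIdeal (T ⧸ 𝔭) • (⊤ : Submodule (T ⧸ 𝔭) Λ) := by
  obtain ⟨htb, hdb, hc, hα, h1, h2, hirr⟩ :=
    residual_pt hp hp𝒪 H hres 𝔭 P hP σ₀ hσ₀ c₀ hc₀ hc₀1
  exact hA7 ρΛ (trPt 𝔭 H) (detPt 𝔭 H) hW (tbPt 𝔭 H.ρ) (dbPt 𝔭 H.ρ) htb hdb
    (P.inertiaSubgroupIn ℚ) σ₀ hσ₀ hα h1
    (fun h hh g => h2 h (inertia_le_decomposition P hh) g) hirr ((c₀ : ℕ) : T ⧸ 𝔭) hc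

/-- `hns` at the point (A7(a) plugged in). -/
theorem hns_pt (hp : p.Prime) (hp𝒪 : (p : 𝒪) ∈ maximalIdeal 𝒪)
    (H : CuspForm.HeckeGaloisRepDatum N (↑S : Set ℕ) 𝒪 θ T)
    (hres : (GaloisRepAdic.ofResidualGaloisRep H.ρ.residual).IsOrdinaryAt p)
    (𝔭 : Ideal T) [𝔭.IsPrime] (P : ValuationSubring Qb) (hP : P.LiesOverPrime p)
    (σ₀ : GQ) (hσ₀ : σ₀ ∈ P.inertiaSubgroupIn ℚ) (c₀ : ℕ)
    (hc₀ : ∀ ζ : Qb, ζ ^ p = 1 → σ₀ ζ = ζ ^ c₀) (hc₀1 : (c₀ : ResidueField T) ≠ 1)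
    {Λ : Type} [AddCommGroup Λ] [Module (T ⧸ 𝔭) Λ] [Module.Finite (T ⧸ 𝔭) Λ] [Nontrivial Λ]
    (ρΛ : GQ →* Module.End (T ⧸ 𝔭) Λ)
    (hW : ∀ g : GQ, ρΛ g + detPt 𝔭 H g • ρΛ g⁻¹ = trPt 𝔭 H g • (1 : Module.End (T ⧸ 𝔭) Λ)) :
    ¬ ∀ x : Λ, ρΛ σ₀ x - (c₀ : T ⧸ 𝔭) • x ∈
      maximalIdeal (T ⧸ 𝔭) • (⊤ : Submodule (T ⧸ 𝔭) Λ) :=
  hns_of_A7a a7a hp hp𝒪 H hres 𝔭 P hP σ₀ hσ₀ c₀ hc₀ hc₀1 ρΛ hW

/-! ### 3. The NEW case -/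

/-- **The NEW case of brick Z** (abstract in `Λ`), for a given `σ₀` in the inertia group acting on
`μ_p` by `ζ ↦ ζ ^ c₀`, `c₀ ≢ 1`: from the hypotheses of S33, the geometric input
`D : GeoDataLite p N M P` and a nonzero `p`-saturated CH-submodule `Λ ⊆ (T ⧸ 𝔭) ⊗ T_p J₀(N)` killed by
both pushes. -/
theorem pointFunctional_new_of_sigma [hp : Fact p.Prime] (hp𝒪 : (p : 𝒪) ∈ maximalIdeal 𝒪)
    {M : ℕ} [NeZero M]
    (H : CuspForm.HeckeGaloisRepDatum N (↑S : Set ℕ) 𝒪 θ T)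
    (hres : (GaloisRepAdic.ofResidualGaloisRep H.ρ.residual).IsOrdinaryAt p)
    (𝔭 : Ideal T) [𝔭.IsPrime] [Algebra ℤ_[p] (T ⧸ 𝔭)] [Module.Flat ℤ_[p] (T ⧸ 𝔭)]
    [Module.Finite ℤ_[p] (TateModule p (JZero N))]
    (P : ValuationSubring Qb) (hP : P.LiesOverPrime p) (D : GeoDataLite p N M P)
    (Λ : Submodule (T ⧸ 𝔭) ((T ⧸ 𝔭) ⊗[ℤ_[p]] TateModule p (JZero N))) (hne : Λ ≠ ⊥)
    (ρΛ : GQ →* Module.End (T ⧸ 𝔭) Λ)
    (hρΛ : ∀ (g : GQ) (x : Λ),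
      ((ρΛ g x : Λ) : (T ⧸ 𝔭) ⊗[ℤ_[p]] TateModule p (JZero N)) =
        (rho p (JZero N) g).baseChange (T ⧸ 𝔭) (x : (T ⧸ 𝔭) ⊗[ℤ_[p]] TateModule p (JZero N)))
    (hsat : ∀ x, (p : T ⧸ 𝔭) • x ∈ Λ → x ∈ Λ)
    (hpushα : ∀ x ∈ Λ, (tmap D.pα).baseChange (T ⧸ 𝔭) x = 0)
    (hpushβ : ∀ x ∈ Λ, (tmap D.pβ).baseChange (T ⧸ 𝔭) x = 0)
    (hW : ∀ g : GQ, ρΛ g + detPt 𝔭 H g • ρΛ g⁻¹ = trPt 𝔭 H g • (1 : Module.End (T ⧸ 𝔭) Λ))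
    (σ₀ : GQ) (hσ₀ : σ₀ ∈ P.inertiaSubgroupIn ℚ) (c₀ : ℕ)
    (hc₀ : ∀ ζ : Qb, ζ ^ p = 1 → σ₀ ζ = ζ ^ c₀) (hc₀1 : (c₀ : ResidueField T) ≠ 1) :
    PointFunctional 𝔭 H P := by
  have hpA : (p : T ⧸ 𝔭) ∈ maximalIdeal (T ⧸ 𝔭) :=
    natCast_mem_maximalIdeal_quot 𝔭 (natCast_mem_maximalIdeal_T hp𝒪)
  -- `Λ` is a nonzero finite module
  haveI : Module.Finite (T ⧸ 𝔭) ((T ⧸ 𝔭) ⊗[ℤ_[p]] TateModule p (JZero N)) :=
    Module.Finite.base_change ℤ_[p] (T ⧸ 𝔭) (TateModule p (JZero N))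
  haveI : IsNoetherian (T ⧸ 𝔭) ((T ⧸ 𝔭) ⊗[ℤ_[p]] TateModule p (JZero N)) :=
    isNoetherian_of_isNoetherianRing_of_finite _ _
  haveI : Module.Finite (T ⧸ 𝔭) Λ := Module.IsNoetherian.finite _ _
  haveI : Nontrivial Λ := (Submodule.nontrivial_iff_ne_bot).mpr hne
  have hns := hns_pt (Λ := ↥Λ) hp.out hp𝒪 H hres 𝔭 P hP σ₀ hσ₀ c₀ hc₀ hc₀1 ρΛ hW
  exact pointFunctional_of_hns H 𝔭 hpA P D Λ ρΛ hρΛ hsat hpushα hpushβ hW σ₀ hσ₀ c₀ hc₀ hns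

/-- **Z, NEW case** (abstract in `Λ`; same binders as `OldCase69.pointFunctional_old`, with the
geometric input `D : GeoDataLite p N M P` and the vanishing of the two pushes on `Λ` instead of
`FlatTorsion`).  `σ₀` is the element of `InertiaCyclo91.exists_mem_inertia_sq` (`c₀ = 2`). -/
theorem pointFunctional_new [Fact p.Prime] (hp2 : p ≠ 2) (hp𝒪 : (p : 𝒪) ∈ maximalIdeal 𝒪)
    (H : CuspForm.HeckeGaloisRepDatum N (↑S : Set ℕ) 𝒪 θ T)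
    (hres : (GaloisRepAdic.ofResidualGaloisRep H.ρ.residual).IsOrdinaryAt p)
    (𝔭 : Ideal T) [𝔭.IsPrime] [Algebra ℤ_[p] (T ⧸ 𝔭)] [Module.Flat ℤ_[p] (T ⧸ 𝔭)]
    {M : ℕ} [NeZero M] [Module.Finite ℤ_[p] (TateModule p (JZero N))]
    (P : ValuationSubring Qb) (hP : P.LiesOverPrime p) (D : GeoDataLite p N M P)
    (Lam : Submodule (T ⧸ 𝔭) ((T ⧸ 𝔭) ⊗[ℤ_[p]] TateModule p (JZero N))) (hne : Lam ≠ ⊥)
    (hsat : ∀ w, (p : T ⧸ 𝔭) • w ∈ Lam → w ∈ Lam)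
    (ρL : GQ →* Module.End (T ⧸ 𝔭) Lam)
    (hcoe : ∀ (g : GQ) (x : Lam),
      ((ρL g x : Lam) : (T ⧸ 𝔭) ⊗[ℤ_[p]] TateModule p (JZero N)) =
        (rho p (JZero N) g).baseChange (T ⧸ 𝔭) x)
    (hW : ∀ g : GQ, ρL g + detPt 𝔭 H g • ρL g⁻¹ = trPt 𝔭 H g • (1 : Module.End (T ⧸ 𝔭) Lam))
    (hpushα : ∀ x ∈ Lam, (tmap D.pα).baseChange (T ⧸ 𝔭) x = 0)
    (hpushβ : ∀ x ∈ Lam, (tmap D.pβ).baseChange (T ⧸ 𝔭) x = 0) :
    PointFunctional 𝔭 H P := by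
  have hp : p.Prime := Fact.out
  obtain ⟨σ₀, hσ₀, hσ₀μ⟩ :=
    Fermat.Agent.ES.GAL.InertiaCyclo91.exists_mem_inertia_sq hp hp2 P hP 1
  exact pointFunctional_new_of_sigma hp𝒪 H hres 𝔭 P hP D Lam hne ρL hcoe hsat hpushα hpushβ hW
    σ₀ hσ₀ 2 (fun ζ hζ => hσ₀μ ζ (by rwa [pow_one])) two_ne_one_residue

end Fermat.Agent.ORD.Z.NewPoint83
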