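/-
ORD (S33), brick Z, **the OLD case** (helper69; ruling #1557 of the ORD lead).

At a point `𝔭` (a prime of `T`, think: minimal) of the Hecke datum `H`, with `A := T ⧸ 𝔭` (a local
domain, finite free over `ℤ_p`), let `Lam ≤ A ⊗ T_p J₀(M)` (`M = N / p`, `p ∤ M`) be a NONZERO
`p`-saturated Galois stable `A`-submodule on which the Cayley–Hamilton relation for the trace and
determinant of the point holds (brick A1 at level `M`: `Lam = eigenSub p M Tbad c`).  If the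
`p`-power torsion of `J₀(M)` is finite flat over `ℤ_(p)` (`Spec40.FlatTorsion p M`, i.e. the frozen
S19 at level `M`) and the residual representation is ordinary at `p`, then
`Skeleton83.PointFunctional 𝔭 H P` holds for every place `P` over `p`.

Wiring: `InertiaCyclo91.exists_mem_inertia_sq` (σ₀) → `PointsToOrd40.isUnit_det_sub_one` →
A6 `ResidualIdent95.residualIdent` over `k_T` → transport to `k_A` along `ResidueField.map` →
A7 (second conclusion of `ResidualModule79.residual_consequences`) → O2 `OldPoint69.exists_invariant_functional_bundled_residual`.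
-/
import Mathlib
import Fermat.Agent.ORD.Z.Skeleton83
import Fermat.Agent.ORD.Alg.ResidualIdent95
import Fermat.Agent.ORD.Alg.ResidualModule79
import Fermat.Agent.ORD.Glue.PointsToOrd40
import Fermat.Agent.ES.GAL.InertiaCyclo91
import Fermat.Agent.ORD.Old.OldPoint69

set_option autoImplicit false
set_option linter.unusedSectionVars false
set_option linter.style.haveILetI false

noncomputable section

open TensorProduct

namespace Fermat.Agent.ORD.Z.OldCase69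

open Fermat.Agent.ORD.Alg Fermat.Agent.ORD.Alg.PointsOfT83 Fermat.Agent.ORD.Alg.CHFunctional40
open Fermat.Agent.ORD.Alg.ResidualIdent95 Fermat.Agent.ORD.Z.Skeleton83
open Fermat.Agent.ES.J.TateModule13 Fermat.Agent.ORD.Old.FlatEigen69
open IsLocalRing ModularCurve

local notation "Qb" => AlgebraicClosure ℚ
local notation "GQ" => (AlgebraicClosure ℚ ≃ₐ[ℚ] AlgebraicClosure ℚ)

/-- `Dfun` commutes with ring homomorphisms. -/
theorem Dfun_map {G : Type*} [Group G] {k k' : Type*} [CommRing k] [CommRing k'] (φ : k →+* k')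
    (t : G → k) (δ : G →* k) (σ₀ g : G) :
    Dfun (fun g => φ (t g)) ((φ : k →* k').comp δ) σ₀ g = φ (Dfun t δ σ₀ g) := by
  simp [Dfun]

variable {p : ℕ} {N : ℕ} [NeZero N] {S : Finset ℕ}
  {𝒪 : Type} [CommRing 𝒪] [IsDomain 𝒪] [IsDiscreteValuationRing 𝒪]
  [IsAdicComplete (IsLocalRing.maximalIdeal 𝒪) 𝒪]
  {θ : CuspForm.heckeAlgebra N 2 (↑S : Set ℕ) →+* IsLocalRing.ResidueField 𝒪}
  {T : Type} [CommRing T] [IsLocalRing T] [IsNoetherianRing T]
  [IsAdicComplete (IsLocalRing.maximalIdeal T) T] [Algebra 𝒪 T] [IsLocalHom (algebraMap 𝒪 T)]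
  [Module.Finite 𝒪 T] [Module.Free 𝒪 T]

/-- **The residual input at a point**: for `σ₀` in the inertia group of `P` squaring `μ_p`, the
residual pseudo-character of the point `T → T ⧸ 𝔭` satisfies the three hypotheses of A5/A7. -/
theorem residual_hyps_pt [Fact p.Prime] (hp𝒪 : (p : 𝒪) ∈ IsLocalRing.maximalIdeal 𝒪)
    (H : CuspForm.HeckeGaloisRepDatum N (↑S : Set ℕ) 𝒪 θ T)
    (hres : (GaloisRepAdic.ofResidualGaloisRep H.ρ.residual).IsOrdinaryAt p)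
    (𝔭 : Ideal T) [𝔭.IsPrime] (P : ValuationSubring Qb) (hP : P.LiesOverPrime p)
    (σ₀ : GQ) (hσ₀ : σ₀ ∈ P.inertiaSubgroupIn ℚ)
    (hσ₀μ : ∀ η : Qb, η ^ p ^ 1 = 1 → σ₀ η = η ^ 2) :
    ∃ (tb : GQ → ResidueField (T ⧸ 𝔭)) (db : GQ →* ResidueField (T ⧸ 𝔭)),
      (∀ g, residue (T ⧸ 𝔭) (trPt 𝔭 H g) = tb g) ∧ (∀ g, residue (T ⧸ 𝔭) (detPt 𝔭 H g) = db g) ∧
      db σ₀ ≠ 1 ∧ (∀ h ∈ P.inertiaSubgroupIn ℚ, tb h = 1 + db h) ∧
      (∀ h ∈ P.inertiaSubgroupIn ℚ, ∀ g : GQ,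
        (db σ₀ - 1) * Dfun tb db σ₀ (h * g) = Dfun tb db σ₀ h * Dfun tb db σ₀ g) ∧
      ¬ ∀ g g' : GQ, (db σ₀ - 1) * Dfun tb db σ₀ (g * g') = Dfun tb db σ₀ g * Dfun tb db σ₀ g' := by
  have hp : p.Prime := Fact.out
  have hunit := Fermat.Agent.ORD.Glue.PointsToOrd40.isUnit_det_sub_one hp hp𝒪 H σ₀ hσ₀μ
  have hα : dbar H.ρ σ₀ ≠ 1 := by
    intro h1
    have h2 : residue T (LinearMap.det (H.ρ.ρ σ₀) - 1) = 0 := by
      rw [map_sub, map_one, ← dbar_apply, h1, sub_self]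
    exact ((mem_maximalIdeal _).1 ((residue_eq_zero_iff _).1 h2)) hunit
  obtain ⟨hI1, hI2, hnm⟩ := residualIdent H.ρ H.residual_absIrr P (hres P hP) σ₀ hσ₀ hα
  haveI := isLocalHom_mk 𝔭
  let φ : ResidueField T →+* ResidueField (T ⧸ 𝔭) := ResidueField.map (Ideal.Quotient.mk 𝔭)
  have hφ : Function.Injective φ := φ.injective
  refine ⟨fun g => φ (tbar H.ρ g),
    (φ : ResidueField T →* ResidueField (T ⧸ 𝔭)).comp (dbar H.ρ),
    fun g => residue_trace_pt 𝔭 H g, fun g => residue_det_pt 𝔭 H g, ?_, ?_, ?_, ?_⟩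
  · intro h1
    apply hα
    apply hφ
    rw [map_one]
    exact h1
  · intro h hh
    show φ (tbar H.ρ h) = 1 + φ (dbar H.ρ h)
    rw [hI1 h hh, map_add, map_one]
  · intro h hh g
    have := congrArg φ (hI2 h (inertia_le_decomposition P hh) g)
    rw [map_mul, map_mul, map_sub, map_one] at this
    rw [Dfun_map, Dfun_map, Dfun_map]
    exact this
  · intro hall
    apply hnm
    intro g g'
    apply hφ
    have := hall g g'
    rw [Dfun_map, Dfun_map, Dfun_map] at this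
    rw [map_mul, map_mul, map_sub, map_one]
    exact this

/-- **Z, OLD case.**  See the header. -/
theorem pointFunctional_old [Fact p.Prime] (hp2 : p ≠ 2)
    (hp𝒪 : (p : 𝒪) ∈ IsLocalRing.maximalIdeal 𝒪)
    (H : CuspForm.HeckeGaloisRepDatum N (↑S : Set ℕ) 𝒪 θ T)
    (hres : (GaloisRepAdic.ofResidualGaloisRep H.ρ.residual).IsOrdinaryAt p)
    (𝔭 : Ideal T) [𝔭.IsPrime] [Algebra ℤ_[p] (T ⧸ 𝔭)] [Module.Finite ℤ_[p] (T ⧸ 𝔭)]
    [Module.Free ℤ_[p] (T ⧸ 𝔭)]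
    {M : ℕ} [NeZero M] (hflat : Fermat.Agent.ORD.Spec.Spec40.FlatTorsion p M)
    [Module.Finite ℤ_[p] (TateModule p (JZero M))]
    (Lam : Submodule (T ⧸ 𝔭) ((T ⧸ 𝔭) ⊗[ℤ_[p]] TateModule p (JZero M))) (hne : Lam ≠ ⊥)
    (hsat : ∀ w, (p : T ⧸ 𝔭) • w ∈ Lam → w ∈ Lam)
    (ρL : GQ →* Module.End (T ⧸ 𝔭) Lam)
    (hcoe : ∀ (g : GQ) (x : Lam),
      ((ρL g x : Lam) : (T ⧸ 𝔭) ⊗[ℤ_[p]] TateModule p (JZero M)) =
        (rho p (JZero M) g).baseChange (T ⧸ 𝔭) x)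
    (hW : ∀ g : GQ, ρL g + detPt 𝔭 H g • ρL g⁻¹ = trPt 𝔭 H g • (1 : Module.End (T ⧸ 𝔭) Lam))
    (P : ValuationSubring Qb) (hP : P.LiesOverPrime p) :
    PointFunctional 𝔭 H P := by
  have hp : p.Prime := Fact.out
  obtain ⟨σ₀, hσ₀, hσ₀μ⟩ :=
    Fermat.Agent.ES.GAL.InertiaCyclo91.exists_mem_inertia_sq hp hp2 P hP 1
  obtain ⟨tb, db, htb, hdb, hα, h1, h2, hirr⟩ :=
    residual_hyps_pt hp𝒪 H hres 𝔭 P hP σ₀ hσ₀ hσ₀μ
  haveI : Module.Finite (T ⧸ 𝔭) Lam := Fermat.Agent.ORD.Old.CoinvGrowth69.finite_lam Lam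
  haveI : Nontrivial Lam := (Submodule.nontrivial_iff_ne_bot).2 hne
  obtain ⟨μ, hμ0, hμI⟩ := (Fermat.Agent.ORD.Alg.ResidualModule79.residual_consequences
    (A := T ⧸ 𝔭) (Λ := ↥Lam) (G := GQ) ρL (trPt 𝔭 H) (detPt 𝔭 H) hW tb db htb hdb (P.inertiaSubgroupIn ℚ) σ₀ hσ₀ hα h1 h2 hirr).2
  have hpA : (p : T ⧸ 𝔭) ∈ maximalIdeal (T ⧸ 𝔭) :=
    natCast_mem_maximalIdeal_quot 𝔭 (natCast_mem_maximalIdeal_T hp𝒪)
  obtain ⟨lam, hlam0, hlamI⟩ :=
    Fermat.Agent.ORD.Old.OldPoint69.exists_invariant_functional_bundled_residual hp2 hpA hflat Lam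
      hsat ρL hcoe P hP ⟨μ, hμ0, hμI⟩
  exact ⟨Lam, inferInstance, inferInstance, ρL, lam, hW, hlam0, hlamI⟩

end Fermat.Agent.ORD.Z.OldCase69
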