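/-
ORD (S33), brick Z — helper83.  **The two case contracts of `Spec/Status72` are closed.**

* `newPointAbstract : Status72.NewPointAbstract`  (`Z/NewPoint83.pointFunctional_new` at `P₀`);
* `oldPointAbstract : Status72.OldPointAbstract`  (helper69's `Z/OldCase69.pointFunctional_old` at `P₀`);
* `openContracts_of_eigen` : `Status72.OpenContracts` from the remaining contract
  `Status72.EigenPackageExists` (A1 + D1) alone;
* `s33_of_eigen` : the conclusion of the frozen S33 from `EigenPackageExists` and the two external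
  inputs `GeoLite40.GeoStmtLite` (chapter G) and `Spec40.FlatTorsion` (programme FFJ).
-/
import Mathlib
import Fermat.Agent.ORD.Spec.Status72
import Fermat.Agent.ORD.Z.NewPoint83
import Fermat.Agent.ORD.Z.OldCase69

set_option autoImplicit false
set_option linter.unusedSectionVars false
set_option linter.style.haveILetI false

open TensorProduct

noncomputable section

namespace Fermat.Agent.ORD.Z.Contracts83

open Fermat.Agent.ORD.Spec.Status72 Fermat.Agent.ORD.Spec.Spec40 Fermat.Agent.ORD.Spec.GeoLite40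
  Fermat.Agent.TW.OrdLocal.PadicPlace97

/-- **Contract NEW is closed.** -/
theorem newPointAbstract : NewPointAbstract := by
  intro p N _ S 𝒪 _ _ _ _ θ T _ _ _ _ _ _ _ _ _ _ _ hp2 hp𝒪 H hres 𝔭 _ _ _ _ _ M _ D _ Lam hne hsat
    ρL hcoe hW hpushα hpushβ
  exact Fermat.Agent.ORD.Z.NewPoint83.pointFunctional_new hp2 hp𝒪 H hres 𝔭 (padicPlace p)
    (padicPlace_liesOverPrime p) D Lam hne hsat ρL hcoe hW hpushα hpushβ

/-- **Contract OLD is closed** (helper69's `pointFunctional_old`). -/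
theorem oldPointAbstract : OldPointAbstract := by
  intro p N _ S 𝒪 _ _ _ _ θ T _ _ _ _ _ _ _ _ _ _ _ hp2 hp𝒪 H hres 𝔭 _ _ _ _ _ M _ hflat _ Lam hne
    hsat ρL hcoe hW
  exact Fermat.Agent.ORD.Z.OldCase69.pointFunctional_old hp2 hp𝒪 H hres 𝔭 hflat Lam hne hsat ρL
    hcoe hW (padicPlace p) (padicPlace_liesOverPrime p)

/-- Only the eigen-package (A1 + D1) is left. -/
theorem openContracts_of_eigen (h : EigenPackageExists) : OpenContracts :=
  ⟨h, oldPointAbstract, newPointAbstract⟩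

variable {p : ℕ} {N : ℕ} [NeZero N] {S : Finset ℕ}
  {𝒪 : Type} [CommRing 𝒪] [IsDomain 𝒪] [IsDiscreteValuationRing 𝒪]
  [IsAdicComplete (IsLocalRing.maximalIdeal 𝒪) 𝒪]
  {θ : CuspForm.heckeAlgebra N 2 (↑S : Set ℕ) →+* IsLocalRing.ResidueField 𝒪}
  {T : Type} [CommRing T] [IsLocalRing T] [IsNoetherianRing T]
  [IsAdicComplete (IsLocalRing.maximalIdeal T) T] [Algebra 𝒪 T] [IsLocalHom (algebraMap 𝒪 T)]
  [Module.Finite 𝒪 T] [Module.Free 𝒪 T]

/-- **S33 from the eigen-package and the two external inputs.** -/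
theorem s33_of_eigen (h : EigenPackageExists) (hgeo : GeoStmtLite)
    (hflat : ∀ (p : ℕ) [Fact p.Prime] (M : ℕ) [NeZero M], ¬ p ∣ M → FlatTorsion p M)
    [Finite (IsLocalRing.ResidueField 𝒪)] [CharZero 𝒪]
    (hp : p.Prime) (hp2 : p ≠ 2) (hp𝒪 : (p : 𝒪) ∈ IsLocalRing.maximalIdeal 𝒪)
    (hN : p ∣ N ∧ ¬ p ^ 2 ∣ N) (hNS : ∀ q : ℕ, q.Prime → q ∣ N → q ∈ S)
    (H : CuspForm.HeckeGaloisRepDatum N (↑S : Set ℕ) 𝒪 θ T)
    (hres : (GaloisRepAdic.ofResidualGaloisRep H.ρ.residual).IsOrdinaryAt p) :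
    H.ρ.IsOrdinaryAt p :=
  s33_of_openContracts (openContracts_of_eigen h) hgeo hflat hp hp2 hp𝒪 hN hNS H hres

end Fermat.Agent.ORD.Z.Contracts83
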