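/-
Program ORD (S33), helper89: **the contract `Status72.EigenPackageExists` (A1 + D1)** from the compiled
bricks `CHDenseFinal89` (A1: the eigen-submodules of `A ⊗ T_p J₀(L)` are saturated Galois-stable
Cayley–Hamilton modules, nonzero at level `N`) and `PushEigenLite93` + `QNewCore19.push_tT` (D1: every
Galois-equivariant map `J₀(N) → J₀(M)` maps the level-`N` eigen-submodule into the level-`M` one).

At a minimal prime `𝔭` of `T`: `A = T ⧸ 𝔭`, `Tbad = S`, `c ℓ = χ(T_ℓ)` (`χ = PointsOfT83.chi 𝔭 H`),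
`Λ^L = CHDense89.eigenSub p L A S c` for `L ∈ {N, M}`.

* `tateHeckeEquivariant` : `PushEigenLite93.TateHeckeEquivariant p N M Tbad`;
* `eigenPackageExists : Status72.EigenPackageExists`;
* `openContracts : Status72.OpenContracts`, `s33_of_geo_flat` : S33 from `GeoStmtLite` + `FlatTorsion`.
-/
import Mathlib
import Fermat.Agent.ORD.Spec.Status72
import Fermat.Agent.ORD.Z.Contracts83
import Fermat.Agent.ORD.Alg.CHDenseFinal89
import Fermat.Agent.ORD.Alg.PushEigenLite93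
import Fermat.Agent.ES.N35.QNewCore19

set_option autoImplicit false
set_option linter.unusedSectionVars false
set_option linter.style.haveILetI false
set_option synthInstance.maxHeartbeats 400000
set_option maxHeartbeats 3200000

open TensorProduct ModularCurve Polynomial

noncomputable section

namespace Fermat.Agent.ORD.Z.EigenPackage89

open Fermat.Agent.ORD.Spec.Status72 Fermat.Agent.ORD.Alg.PointsOfT83 Fermat.Agent.ORD.Z.Skeleton83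
  Fermat.Agent.ORD.Alg.CHDense89 Fermat.Agent.ES.J.TateJZero13 Fermat.Agent.ES.J.TateModule13

local notation "Qb" => AlgebraicClosure ℚ
local notation "GQ" => (AlgebraicClosure ℚ ≃ₐ[ℚ] AlgebraicClosure ℚ)

/-- **D1, the Tate-module input**: every Galois-equivariant `ℤ_[p]`-linear map
`T_p J₀(N) → T_p J₀(M)` intertwines the `T_ℓ`, `ℓ ∉ Tbad` (`= QNewCore19.push_tT`). -/
theorem tateHeckeEquivariant {p : ℕ} [Fact p.Prime] {N M : ℕ} [NeZero N] [NeZero M]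
    (Tbad : Finset ℕ) (hp : p ∈ Tbad) (hN : ∀ q : ℕ, q.Prime → q ∣ N → q ∈ Tbad)
    (hM : ∀ q : ℕ, q.Prime → q ∣ M → q ∈ Tbad) :
    Fermat.Agent.ORD.Alg.PushEigenLite93.TateHeckeEquivariant p N M Tbad :=
  fun F hF ℓ hℓ hℓT y =>
    Fermat.Agent.ES.N35.QNewCore19.push_tT F (fun σ x => hF σ x) hℓ
      (fun h => hℓT (hN ℓ hℓ h)) (fun h => hℓT (hM ℓ hℓ h)) (fun h => hℓT (h ▸ hp)) y

section Point

variable {p : ℕ} {N : ℕ} [NeZero N] {S : Finset ℕ}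
  {𝒪 : Type} [CommRing 𝒪] [IsDomain 𝒪] [IsDiscreteValuationRing 𝒪]
  [IsAdicComplete (IsLocalRing.maximalIdeal 𝒪) 𝒪]
  {θ : CuspForm.heckeAlgebra N 2 (↑S : Set ℕ) →+* IsLocalRing.ResidueField 𝒪}
  {T : Type} [CommRing T] [IsLocalRing T] [IsNoetherianRing T]
  [IsAdicComplete (IsLocalRing.maximalIdeal T) T] [Algebra 𝒪 T] [IsLocalHom (algebraMap 𝒪 T)]
  [Module.Finite 𝒪 T] [Module.Free 𝒪 T]

open Classical in
/-- the system of eigenvalues of the point `T → T ⧸ 𝔭`. -/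
def cPt (𝔭 : Ideal T) [𝔭.IsPrime] (H : CuspForm.HeckeGaloisRepDatum N (↑S : Set ℕ) 𝒪 θ T) :
    ℕ → T ⧸ 𝔭 := fun ℓ =>
  if h : ℓ.Prime ∧ ¬ ℓ ∣ N ∧ ℓ ∉ (↑S : Set ℕ) then
    chi 𝔭 H (CuspForm.heckeAlgebra.T h.1 h.2.1 h.2.2) else 0

theorem cPt_eq (𝔭 : Ideal T) [𝔭.IsPrime] (H : CuspForm.HeckeGaloisRepDatum N (↑S : Set ℕ) 𝒪 θ T)
    (ℓ : ℕ) (hℓ : ℓ.Prime) (hℓN : ¬ ℓ ∣ N) (hℓS : ℓ ∉ (↑S : Set ℕ)) :
    cPt 𝔭 H ℓ = chi 𝔭 H (CuspForm.heckeAlgebra.T hℓ hℓN hℓS) := by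
  rw [cPt, dif_pos ⟨hℓ, hℓN, hℓS⟩]

/-- the Frobenius characteristic polynomials of the point, in the shape of `CHDense89`. -/
theorem charpoly_frob_cPt (hNS : ∀ q : ℕ, q.Prime → q ∣ N → q ∈ S)
    (𝔭 : Ideal T) [𝔭.IsPrime] (H : CuspForm.HeckeGaloisRepDatum N (↑S : Set ℕ) 𝒪 θ T)
    (ℓ : ℕ) (hℓ : ℓ.Prime) (hℓS : ℓ ∉ S) (B : ValuationSubring Qb) (hB : B.LiesOverPrime ℓ)
    (φ : GQ) (hφ : B.IsFrobeniusAt φ ℓ) :
    ((pt 𝔭 H).ρ φ).charpoly = X ^ 2 - C (cPt 𝔭 H ℓ) * X + C ((ℓ : T ⧸ 𝔭)) := by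
  have hℓN : ¬ ℓ ∣ N := fun h => hℓS (hNS ℓ hℓ h)
  have hℓS' : ℓ ∉ (↑S : Set ℕ) := fun h => hℓS (Finset.mem_coe.mp h)
  rw [cPt_eq 𝔭 H ℓ hℓ hℓN hℓS']
  exact charpoly_frob_pt 𝔭 H ℓ hℓ hℓN hℓS' B hB φ hφ

end Point

/-- **Contract A1 + D1.** -/
theorem eigenPackageExists : EigenPackageExists := by
  intro p N _ S 𝒪 _ _ _ _ θ T _ _ _ _ _ _ _ _ _ _ _ hp𝒪 hNS H 𝔭 _ h𝔭 _ M _ hNM
  haveI : CharZero (T ⧸ 𝔭) := charZero_quot (𝒪 := 𝒪) 𝔭 h𝔭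
  haveI : IsDomain (T ⧸ 𝔭) := Ideal.Quotient.isDomain 𝔭
  have hpA : (p : T ⧸ 𝔭) ∈ IsLocalRing.maximalIdeal (T ⧸ 𝔭) :=
    natCast_mem_maximalIdeal_quot 𝔭 (natCast_mem_maximalIdeal_T (𝒪 := 𝒪) hp𝒪)
  have hpN : p ∣ N := ⟨M, by rw [hNM, mul_comm]⟩
  have hpS : p ∈ S := hNS p Fact.out hpN
  have hMS : ∀ q : ℕ, q.Prime → q ∣ M → q ∈ S := fun q hq hqM =>
    hNS q hq (by rw [hNM]; exact Dvd.dvd.mul_right hqM p)
  have hcp := charpoly_frob_cPt hNS 𝔭 H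
  have hT := tateHeckeEquivariant (p := p) (N := N) (M := M) S hpS hNS hMS
  refine ⟨{
    LamN := eigenSub p N (T ⧸ 𝔭) S (cPt 𝔭 H)
    LamM := eigenSub p M (T ⧸ 𝔭) S (cPt 𝔭 H)
    finN := (Fermat.Agent.ORD.Alg.CHDenseFinal89.finite_free_TJ p N).1
    finM := (Fermat.Agent.ORD.Alg.CHDenseFinal89.finite_free_TJ p M).1
    ne_bot := Fermat.Agent.ORD.Alg.CHDenseFinal89.eigenSub_ne_bot hNS (chi 𝔭 H)
      (Finset.Subset.refl S) (fun ℓ hℓ hℓN hℓS => cPt_eq 𝔭 H ℓ hℓ hℓN hℓS)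
    satN := fun w h => Fermat.Agent.ORD.Alg.CHDenseFinal89.saturated_p h
    satM := fun w h => Fermat.Agent.ORD.Alg.CHDenseFinal89.saturated_p h
    stabN := fun g w hw => rho_mem g hw
    stabM := fun g w hw => rho_mem g hw
    chN := fun g w hw =>
      Fermat.Agent.ORD.Alg.CHDenseFinal89.cayleyHamilton_rep hpS hNS hpA (pt 𝔭 H) hcp g hw
    chM := fun g w hw =>
      Fermat.Agent.ORD.Alg.CHDenseFinal89.cayleyHamilton_rep hpS hMS hpA (pt 𝔭 H) hcp g hw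
    push := fun f hgal w hw =>
      Fermat.Agent.ORD.Alg.PushEigenLite93.map_mem_of_galois f hgal S hT (cPt 𝔭 H) hw }⟩

/-- All internal contracts of programme ORD are closed. -/
theorem openContracts : OpenContracts :=
  Fermat.Agent.ORD.Z.Contracts83.openContracts_of_eigen eigenPackageExists

section S33

variable {p : ℕ} {N : ℕ} [NeZero N] {S : Finset ℕ}
  {𝒪 : Type} [CommRing 𝒪] [IsDomain 𝒪] [IsDiscreteValuationRing 𝒪]
  [IsAdicComplete (IsLocalRing.maximalIdeal 𝒪) 𝒪]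
  {θ : CuspForm.heckeAlgebra N 2 (↑S : Set ℕ) →+* IsLocalRing.ResidueField 𝒪}
  {T : Type} [CommRing T] [IsLocalRing T] [IsNoetherianRing T]
  [IsAdicComplete (IsLocalRing.maximalIdeal T) T] [Algebra 𝒪 T] [IsLocalHom (algebraMap 𝒪 T)]
  [Module.Finite 𝒪 T] [Module.Free 𝒪 T]

/-- **S33 from the two external inputs** `GeoStmtLite` (chapter G) and `FlatTorsion` (S19 at the levels
prime to `p`).  The conclusion is literally the frozen S33. -/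
theorem s33_of_geo_flat (hgeo : Fermat.Agent.ORD.Spec.GeoLite40.GeoStmtLite)
    (hflat : ∀ (p : ℕ) [Fact p.Prime] (M : ℕ) [NeZero M], ¬ p ∣ M →
      Fermat.Agent.ORD.Spec.Spec40.FlatTorsion p M)
    [Finite (IsLocalRing.ResidueField 𝒪)] [CharZero 𝒪]
    (hp : p.Prime) (hp2 : p ≠ 2) (hp𝒪 : (p : 𝒪) ∈ IsLocalRing.maximalIdeal 𝒪)
    (hN : p ∣ N ∧ ¬ p ^ 2 ∣ N) (hNS : ∀ q : ℕ, q.Prime → q ∣ N → q ∈ S)
    (H : CuspForm.HeckeGaloisRepDatum N (↑S : Set ℕ) 𝒪 θ T)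
    (hres : (GaloisRepAdic.ofResidualGaloisRep H.ρ.residual).IsOrdinaryAt p) :
    H.ρ.IsOrdinaryAt p :=
  Fermat.Agent.ORD.Z.Contracts83.s33_of_eigen eigenPackageExists hgeo hflat hp hp2 hp𝒪 hN hNS H hres

end S33

end Fermat.Agent.ORD.Z.EigenPackage89
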