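/-
ORD (S33), brick Z, the NEW case at the eigen-submodule — helper83.

`NewPoint83.pointFunctional_new` is abstract in `Λ ⊆ (T ⧸ 𝔭) ⊗ T_p J₀(N)`, with a bundled action `ρL`.
This file instantiates it at the simultaneous eigen-submodule `PushEigen93.eigenSet p N Tbad c`
(same carrier as A1's `CHDense89.eigenSub`), or at any Galois-stable `Λ` given with the Cayley–Hamilton
IDENTITY (the output shape of `CHCore90.cayleyHamilton` / A1):

* `bcRho`                     : `g ↦ (rho p J g).baseChange A`, as a monoid homomorphism;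
* `subRep`, `subRep_coe`      : the restriction of a representation to a stable submodule;
* `hW_subRep`                 : the relation `ρ g + δ g • ρ g⁻¹ = t g • 1` on the submodule, from the
                                identity `R g (R g w) - t g • R g w + δ g • w = 0` on it;
* `pointFunctional_new_stable`: the NEW case for a Galois-stable `Λ` with the CH identity;
* `pointFunctional_new_eigenSet` : the NEW case for `Λ = eigenSet p N Tbad c`, the vanishing of the
                                pushes coming from `eigenSet p M Tbad c = ⊥`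
                                (`PushEigenLite93.geoDataLite_push_eq_zero`).
-/
import Mathlib
import Fermat.Agent.ORD.Z.NewPoint83
import Fermat.Agent.ORD.Alg.PushEigenLite93

set_option autoImplicit false
set_option linter.unusedSectionVars false
set_option linter.style.haveILetI false

open TensorProduct

noncomputable section

namespace Fermat.Agent.ORD.Z.NewEigen83

open Fermat.Agent.ORD.Alg Fermat.Agent.ORD.Alg.PointsOfT83 Fermat.Agent.ORD.Alg.CHFunctional40
  Fermat.Agent.ORD.Z.Skeleton83 Fermat.Agent.ORD.Z.NewPoint83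
  Fermat.Agent.ORD.Spec.GeoLite40 Fermat.Agent.ES.J.TateModule13 ModularCurve IsLocalRing
  Fermat.Agent.ORD.Alg.PushEigen93 Fermat.Agent.ORD.Alg.PushEigenLite93

local notation "Qb" => AlgebraicClosure ℚ
local notation "GQ" => (AlgebraicClosure ℚ ≃ₐ[ℚ] AlgebraicClosure ℚ)
local notation "tmap" => Fermat.Agent.ES.J.TateModule13.map

/-! ### 1. Generic: restriction of a representation to a stable submodule -/

section Generic

variable {G : Type*} [Group G] {A : Type*} [CommRing A] {V : Type*} [AddCommGroup V] [Module A V]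

/-- the restriction of a representation to a stable submodule. -/
def subRep (R : G →* Module.End A V) (Λ : Submodule A V) (hst : ∀ g : G, ∀ x ∈ Λ, R g x ∈ Λ) :
    G →* Module.End A Λ where
  toFun g := (R g).restrict (hst g)
  map_one' := by
    ext v
    simp [LinearMap.restrict_apply]
  map_mul' g g' := by
    ext v
    simp [LinearMap.restrict_apply]

theorem subRep_coe (R : G →* Module.End A V) (Λ : Submodule A V)
    (hst : ∀ g : G, ∀ x ∈ Λ, R g x ∈ Λ) (g : G) (x : Λ) :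
    ((subRep R Λ hst g x : Λ) : V) = R g (x : V) := rfl

/-- the Cayley–Hamilton IDENTITY on a stable submodule gives the relation
`ρ g + δ g • ρ g⁻¹ = t g • 1` for the restricted representation. -/
theorem hW_subRep (R : G →* Module.End A V) (Λ : Submodule A V)
    (hst : ∀ g : G, ∀ x ∈ Λ, R g x ∈ Λ) (t : G → A) (δ : G →* A)
    (hCH : ∀ g : G, ∀ w ∈ Λ, R g (R g w) - t g • R g w + δ g • w = 0) (g : G) :
    subRep R Λ hst g + δ g • subRep R Λ hst g⁻¹ = t g • (1 : Module.End A Λ) := by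
  ext x
  have hx : R g⁻¹ (x : V) ∈ Λ := hst g⁻¹ _ x.2
  have h := hCH g _ hx
  have e : R g (R g⁻¹ (x : V)) = x := by
    rw [← Module.End.mul_apply, ← map_mul, mul_inv_cancel, map_one, Module.End.one_apply]
  rw [e] at h
  simp only [LinearMap.add_apply, LinearMap.smul_apply, Module.End.one_apply, Submodule.coe_add,
    Submodule.coe_smul, subRep_coe]
  rw [← sub_eq_zero, ← h]
  abel

end Generic

/-! ### 2. The base-changed Galois action on the Tate module -/

section BC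

variable {p : ℕ} [hp : Fact p.Prime] {J : Type*} [AddCommGroup J] [DistribMulAction GQ J]
  (A : Type*) [CommRing A] [Algebra ℤ_[p] A]

variable (p J) in
/-- `g ↦ (rho p J g).baseChange A`, as a monoid homomorphism. -/
def bcRho : GQ →* Module.End A (A ⊗[ℤ_[p]] TateModule p J) :=
  ((Module.End.baseChangeHom ℤ_[p] A (TateModule p J) :
    Module.End ℤ_[p] (TateModule p J) →* Module.End A (A ⊗[ℤ_[p]] TateModule p J))).comp
      (rho p J)

theorem bcRho_apply (g : GQ) : bcRho p J A g = (rho p J g).baseChange A := rfl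

end BC

/-! ### 3. The NEW case for a stable submodule with the CH identity -/

variable {p : ℕ} {N : ℕ} [NeZero N] {S : Finset ℕ}
  {𝒪 : Type} [CommRing 𝒪] [IsDomain 𝒪] [IsDiscreteValuationRing 𝒪]
  [IsAdicComplete (IsLocalRing.maximalIdeal 𝒪) 𝒪]
  {θ : CuspForm.heckeAlgebra N 2 (↑S : Set ℕ) →+* IsLocalRing.ResidueField 𝒪}
  {T : Type} [CommRing T] [IsLocalRing T] [IsNoetherianRing T]
  [IsAdicComplete (IsLocalRing.maximalIdeal T) T] [Algebra 𝒪 T] [IsLocalHom (algebraMap 𝒪 T)]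
  [Module.Finite 𝒪 T] [Module.Free 𝒪 T]

/-- **Z, NEW case, for a Galois-stable `Λ` with the Cayley–Hamilton identity** (the output shape of
`CHCore90.cayleyHamilton` with `ρ := PointsOfT83.pt 𝔭 H`). -/
theorem pointFunctional_new_stable [Fact p.Prime] (hp2 : p ≠ 2) (hp𝒪 : (p : 𝒪) ∈ maximalIdeal 𝒪)
    (H : CuspForm.HeckeGaloisRepDatum N (↑S : Set ℕ) 𝒪 θ T)
    (hres : (GaloisRepAdic.ofResidualGaloisRep H.ρ.residual).IsOrdinaryAt p)
    (𝔭 : Ideal T) [𝔭.IsPrime] [Algebra ℤ_[p] (T ⧸ 𝔭)] [Module.Flat ℤ_[p] (T ⧸ 𝔭)]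
    {M : ℕ} [NeZero M] [Module.Finite ℤ_[p] (TateModule p (JZero N))]
    (P : ValuationSubring Qb) (hP : P.LiesOverPrime p) (D : GeoDataLite p N M P)
    (Lam : Submodule (T ⧸ 𝔭) ((T ⧸ 𝔭) ⊗[ℤ_[p]] TateModule p (JZero N))) (hne : Lam ≠ ⊥)
    (hsat : ∀ w, (p : T ⧸ 𝔭) • w ∈ Lam → w ∈ Lam)
    (hst : ∀ g : GQ, ∀ w ∈ Lam, (rho p (JZero N) g).baseChange (T ⧸ 𝔭) w ∈ Lam)
    (hCH : ∀ g : GQ, ∀ w ∈ Lam,
      (rho p (JZero N) g).baseChange (T ⧸ 𝔭) ((rho p (JZero N) g).baseChange (T ⧸ 𝔭) w) -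
        LinearMap.trace (T ⧸ 𝔭) (pt 𝔭 H).V ((pt 𝔭 H).ρ g) •
          (rho p (JZero N) g).baseChange (T ⧸ 𝔭) w +
        LinearMap.det ((pt 𝔭 H).ρ g) • w = 0)
    (hpushα : ∀ x ∈ Lam, (tmap D.pα).baseChange (T ⧸ 𝔭) x = 0)
    (hpushβ : ∀ x ∈ Lam, (tmap D.pβ).baseChange (T ⧸ 𝔭) x = 0) :
    PointFunctional 𝔭 H P :=
  pointFunctional_new hp2 hp𝒪 H hres 𝔭 P hP D Lam hne hsat
    (subRep (bcRho p (JZero N) (T ⧸ 𝔭)) Lam hst) (fun _ _ => rfl)
    (hW_subRep (bcRho p (JZero N) (T ⧸ 𝔭)) Lam hst (trPt 𝔭 H) (detPt 𝔭 H) hCH) hpushα hpushβ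

/-- **Z, NEW case, at the eigen-submodule**: `Λ = eigenSet p N Tbad c`, and the eigen-submodule at
level `M` (same `c`, same `Tbad`) vanishes. -/
theorem pointFunctional_new_eigenSet [Fact p.Prime] (hp2 : p ≠ 2)
    (hp𝒪 : (p : 𝒪) ∈ maximalIdeal 𝒪)
    (H : CuspForm.HeckeGaloisRepDatum N (↑S : Set ℕ) 𝒪 θ T)
    (hres : (GaloisRepAdic.ofResidualGaloisRep H.ρ.residual).IsOrdinaryAt p)
    (𝔭 : Ideal T) [𝔭.IsPrime] [Algebra ℤ_[p] (T ⧸ 𝔭)] [Module.Flat ℤ_[p] (T ⧸ 𝔭)]
    {M : ℕ} [NeZero M] [Module.Finite ℤ_[p] (TateModule p (JZero N))]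
    (P : ValuationSubring Qb) (hP : P.LiesOverPrime p) (D : GeoDataLite p N M P)
    (Tbad : Finset ℕ) (c : ℕ → T ⧸ 𝔭)
    (hcomm : ∀ (ℓ : Nat.Primes) (σ : GQ) (x : JZero N),
      heckeOperatorBar N ℓ (σ • x) = σ • heckeOperatorBar N ℓ x)
    (hT : TateHeckeEquivariant p N M Tbad)
    (hM : eigenSet p M Tbad c = ⊥)
    (hne : eigenSet p N Tbad c ≠ ⊥)
    (hsat : ∀ w, (p : T ⧸ 𝔭) • w ∈ eigenSet p N Tbad c → w ∈ eigenSet p N Tbad c)
    (hCH : ∀ g : GQ, ∀ w ∈ eigenSet p N Tbad c,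
      (rho p (JZero N) g).baseChange (T ⧸ 𝔭) ((rho p (JZero N) g).baseChange (T ⧸ 𝔭) w) -
        LinearMap.trace (T ⧸ 𝔭) (pt 𝔭 H).V ((pt 𝔭 H).ρ g) •
          (rho p (JZero N) g).baseChange (T ⧸ 𝔭) w +
        LinearMap.det ((pt 𝔭 H).ρ g) • w = 0) :
    PointFunctional 𝔭 H P := by
  obtain ⟨hα, hβ⟩ := geoDataLite_push_eq_zero (A := T ⧸ 𝔭) D Tbad hT c hM
  exact pointFunctional_new_stable hp2 hp𝒪 H hres 𝔭 P hP D (eigenSet p N Tbad c) hne hsat
    (fun g w hw => rho_mem_eigenSet hcomm Tbad c g hw) hCH hα hβ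

end Fermat.Agent.ORD.Z.NewEigen83
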