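/-
Programme ORD (S33), brick Z, contract (2) of `Spec/Status72`: **`OldPointAbstract` is closed**.

`Status72.OldPointAbstract` is literally `OldCase69.pointFunctional_old` at the place
`P₀ = padicPlace p` (with three extra, unused, binders), so this file only plugs it in.
-/
import Mathlib
import Fermat.Agent.ORD.Spec.Status72
import Fermat.Agent.ORD.Z.OldCase69

set_option autoImplicit false
set_option linter.unusedSectionVars false

noncomputable section

namespace Fermat.Agent.ORD.Z.OldContract69

/-- Contract OLD of `Status72` (the field `oldPoint` of `Status72.OpenContracts`). -/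
theorem oldPointAbstract : Fermat.Agent.ORD.Spec.Status72.OldPointAbstract := by
  intro p N _ S 𝒪 _ _ _ _ θ T _ _ _ _ _ _ _ _ _ _ _ hp2 hp𝒪 H hres 𝔭 _ _h𝔭 _ _ _ M _ hflat _ Lam hne
    hsat ρL hcoe hW
  exact Fermat.Agent.ORD.Z.OldCase69.pointFunctional_old hp2 hp𝒪 H hres 𝔭 hflat Lam hne hsat ρL
    hcoe hW (padicPlace p)
    (Fermat.Agent.TW.OrdLocal.PadicPlace97.padicPlace_liesOverPrime p)

end Fermat.Agent.ORD.Z.OldContract69
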